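import Mathlib
import Fermat.Agent.LT.T7.H340.UpFactSpec

/-!
# Row LT, tower T7, node C2.7.13.1.A (registry row 2743, helper322): the top of PART A upstairs

OFF-MAIN.  Complete proof, nothing assumed.  Port of helper558 `FactDownTopA.lean` to the
cut-off upstairs `upCut340` of helper340 (`T7/H340/UpFactSpec.lean`, sha256 04981afb).

    cutOnUpC_of322 : SuppOutUpC340 K' → SuppUpC340 K K' → CutOnOutUpC340 K K' →
        TorCommC305 K' → EllRegC305 K K' → OutOpenC558 K' → CompContC558 K → CompContC558 K' →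
        HaarSigmaC558 K → IsoContC340 → CutOnUpC340 K K'

Measurability: `upCut340` is the indicator of the open set `Out_{S'}` of a continuous function
(`upCutCore322`); non-negativity; right invariance of `μT'` (the twisted torus is commutative:
`TorCommC305 K'` for `N δ = γ` elliptic, `EllRegC305`); then `SuppOutUpC340`, `SuppUpC340`,
`CutOnOutUpC340`.
-/

set_option autoImplicit false

open AutomorphicForm IsDedekindDomain NumberField MeasureTheory
open scoped ComplexConjugate

noncomputable section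

namespace Fermat.Agent.LT.T7.H322

open Fermat.Agent.LT.H556 Fermat.Agent.LT.H556.A0 Fermat.Agent.LT.T7 Fermat.Agent.LT.T7.H305
open Fermat.Agent.LT.T7.H558 Fermat.Agent.LT.T7.H340

attribute [local instance] Fermat.Agent.LT.T5.instMeasurableSpaceG

/-- `GL₂` of a continuous ring homomorphism is continuous. -/
theorem continuous_glMap322 {A B : Type} [CommRing A] [CommRing B] [TopologicalSpace A]
    [TopologicalSpace B] (f : A →+* B) (hf : Continuous f) :
    Continuous (Matrix.GeneralLinearGroup.map (n := Fin 2) f) := by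
  have h : Continuous ((RingHom.mapMatrix f : Matrix (Fin 2) (Fin 2) A →+* _) :
      Matrix (Fin 2) (Fin 2) A →* Matrix (Fin 2) (Fin 2) B) :=
    Continuous.matrix_map continuous_id hf
  exact Continuous.units_map _ h

variable {K K' : Type} [Field K] [NumberField K] [Field K'] [NumberField K'] [Algebra K K']

open Classical in
/-- The continuous factor of the cut-off upstairs. -/
def upCutCore322 (cT : ℝ) {γ : GL (Fin 2) K} (L : LocData305 K γ) {δ : GL (Fin 2) K'}
    (U : UpDat340 K δ) (y : G K') : ℝ :=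
  cT⁻¹ * (∏ v : U.Sin, (U.dI v).β' (finGL305 (U.dI v).w y))
    * (∏ v : U.Ssp, L.βv v.1
        (Matrix.GeneralLinearGroup.map
          ((((U.dS v).i 0).symm : ((U.dS v).w 0).adicCompletion K' ≃+* _) :
            ((U.dS v).w 0).adicCompletion K' →+* (v.1).adicCompletion K)
          (finGL305 ((U.dS v).w 0) y)))
    * ∏ v : InfinitePlace K, L.βc v
        (Matrix.GeneralLinearGroup.map ((U.dA v).d 0) (infGL305 ((U.dA v).w 0) y))

theorem upCut_eq_indicator322 (S' : Finset (HeightOneSpectrum (𝓞 K'))) (cT : ℝ)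
    {γ : GL (Fin 2) K} (L : LocData305 K γ) {δ : GL (Fin 2) K'} (U : UpDat340 K δ) :
    upCut340 S' cT L U = Set.indicator {y : G K' | OutT305 S' y} (upCutCore322 cT L U) := by
  classical
  funext y
  by_cases h : OutT305 S' y
  · rw [Set.indicator_of_mem (show y ∈ {y : G K' | OutT305 S' y} from h)]
    change (if OutT305 S' y then _ else _) = _
    rw [if_pos h]
    rfl
  · rw [Set.indicator_of_notMem (show y ∉ {y : G K' | OutT305 S' y} from h)]
    change (if OutT305 S' y then _ else _) = _
    rw [if_neg h]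

theorem continuous_upCutCore322 (hCont' : CompContC558 K') (hIso : IsoContC340)
    (D : CompData K K') (ι : Adl K →+* Adl K') (n : HeightOneSpectrum (𝓞 K') → ℕ)
    (m : HeightOneSpectrum (𝓞 K) → ℕ) (S : Finset (HeightOneSpectrum (𝓞 K))) (cT : ℝ)
    {γ : GL (Fin 2) K} (L : LocData305 K γ) (hL : IsLocData305 m L) {δ : GL (Fin 2) K'}
    (U : UpDat340 K δ) (hU : IsUpDat340 D ι n L S U) :
    Continuous (upCutCore322 cT L U) := by
  unfold upCutCore322
  refine ((continuous_const.mul (continuous_finset_prod _ fun v _ => ?_)).mul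
    (continuous_finset_prod _ fun v _ => ?_)).mul (continuous_finset_prod _ fun v _ => ?_)
  · exact (hU.inert v).cut.1.comp (hCont'.1 _)
  · have hval : ∀ x : ((U.dS v).w 0).adicCompletion K',
        Valued.v ((((U.dS v).i 0).symm : ((U.dS v).w 0).adicCompletion K' ≃+* _) x)
          = Valued.v x ^ 1 := by
      intro x
      have h := (hU.split v).val_i 0 (((U.dS v).i 0).symm x)
      rw [RingEquiv.apply_symm_apply] at h
      rw [pow_one]
      exact h.symm
    have hc := (hIso _ _ 1
      ((((U.dS v).i 0).symm : ((U.dS v).w 0).adicCompletion K' ≃+* _) :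
        ((U.dS v).w 0).adicCompletion K' →+* (v.1).adicCompletion K) one_pos hval).2
    exact (hL.cut v.1).1.comp (hc.comp (hCont'.1 _))
  · have hd : Continuous ((U.dA v).d 0) := by
      rcases (hU.arch v).typ 0 with h | h
      · rw [h]; exact continuous_id
      · rw [h]; exact Complex.continuous_conj
    exact (hL.cutc v).1.comp ((continuous_glMap322 _ hd).comp (hCont'.2 _))

theorem upCut_nonneg322 (D : CompData K K') (ι : Adl K →+* Adl K')
    (n : HeightOneSpectrum (𝓞 K') → ℕ)
    (m : HeightOneSpectrum (𝓞 K) → ℕ) (S : Finset (HeightOneSpectrum (𝓞 K)))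
    (S' : Finset (HeightOneSpectrum (𝓞 K'))) (cT : ℝ) (hcT : 0 < cT)
    {γ : GL (Fin 2) K} (L : LocData305 K γ) (hL : IsLocData305 m L) {δ : GL (Fin 2) K'}
    (U : UpDat340 K δ) (hU : IsUpDat340 D ι n L S U) (y : G K') :
    0 ≤ upCut340 S' cT L U y := by
  classical
  rw [upCut_eq_indicator322]
  refine Set.indicator_nonneg (fun y _ => ?_) y
  unfold upCutCore322
  refine mul_nonneg (mul_nonneg (mul_nonneg (inv_nonneg.2 hcT.le)
    (Finset.prod_nonneg fun v _ => ?_)) (Finset.prod_nonneg fun v _ => ?_))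
    (Finset.prod_nonneg fun v _ => ?_)
  · exact (hU.inert v).cut.2.1 _
  · exact (hL.cut v.1).2.1 _
  · exact (hL.cutc v).2.1 _

/-- Right translation by an element of the (commutative) twisted torus does not change the
orbital average. -/
theorem torus_transl322 (s : T5.AdelicAut K') (δ : GL (Fin 2) K')
    (hComm : ∀ x ∈ tA305 s δ, ∀ y ∈ tA305 s δ, x * y = y * x)
    (μT : @Measure (tA305 s δ) (borel _))
    (hμT : @Measure.IsHaarMeasure _ _ _ (borel _) μT) (β : G K' → ℝ) (t : G K')
    (ht : t ∈ tA305 s δ) (x : G K') :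
    @integral _ _ _ _ (borel _) μT (fun t₁ : tA305 s δ => β ((t₁ : G K') * (t * x)))
      = @integral _ _ _ _ (borel _) μT (fun t₁ : tA305 s δ => β ((t₁ : G K') * x)) := by
  letI : MeasurableSpace (tA305 s δ) := borel _
  haveI : BorelSpace (tA305 s δ) := ⟨rfl⟩
  haveI := hμT
  have h := integral_mul_left_eq_self (μ := μT)
    (fun t₁ : tA305 s δ => β ((t₁ : G K') * x)) (⟨t, ht⟩ : tA305 s δ)
  rw [← h]
  congr 1
  funext t₁
  have hc : (t₁ : G K') * t = t * (t₁ : G K') := hComm _ t₁.2 _ ht
  change β ((t₁ : G K') * (t * x)) = β ((t * (t₁ : G K')) * x)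
  rw [← mul_assoc, hc]

/-- **THE TOP OF PART A UPSTAIRS** (registry row 2743). -/
theorem cutOnUpC_of322 (hSO : SuppOutUpC340 K') (hSU : SuppUpC340 K K')
    (hCut : CutOnOutUpC340 K K') (hComm : TorCommC305 K') (hEll : EllRegC305 K K')
    (hOpen : OutOpenC558 K') (hCont : CompContC558 K) (hCont' : CompContC558 K')
    (hσ : HaarSigmaC558 K) (hIso : IsoContC340) : CutOnUpC340 K K' := by
  intro hT6 D hD hcyc hl hcplx ι hι T₀ hT₀ n m hlev S S' hTS hSS' φ₀ Φ δ γ hγ hN hgood hint
    μT μT' hμT hμT' hlink L cT hL hcT hTor U hU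
  refine ⟨?_, upCut_nonneg322 D ι n m S S' cT hcT L hL U hU, ?_⟩
  · rw [upCut_eq_indicator322]
    haveI : BorelSpace (G K') := ⟨rfl⟩
    exact (continuous_upCutCore322 hCont' hIso D ι n m S cT L hL U hU).measurable.indicator
      (hOpen S').measurableSet
  · intro x hx
    have h1 : OutT305 S' (x⁻¹ * T5.ratG δ * D.s.onG x) :=
      hSO D.R'.r hD.frame'.ray D.s S' φ₀ Φ δ x hx
    obtain ⟨t, ht, hout⟩ :=
      hSU hT6 D hD hcyc hl hcplx T₀ hT₀ S S' hTS hSS' δ γ hγ hN hgood hint x h1
    have hone := hCut hσ hCont hCont' D hD hcyc hl hcplx ι hι n m S S' hSS' δ γ hγ hN hgood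
      μT μT' hμT hμT' hlink L cT hL hcT hTor U hU (t⁻¹ * x) hout
    have hreg : T5.IsEllRegOver D.k (D.s.normUpTo D.l δ) := by
      rw [hN]
      exact (hEll D hD γ hγ).1
    have hcomm := hComm D.R' hD.frame' D.s D.l D.k D.𝔑 hD.cyc hD.aut δ hreg
    have htr := torus_transl322 D.s δ hcomm μT' hμT' (upCut340 S' cT L U) t ht (t⁻¹ * x)
    rw [mul_inv_cancel_left] at htr
    rw [htr]
    exact hone

end Fermat.Agent.LT.T7.H322

end
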